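import Fermat.Agent.DR.Abs.Final
import Fermat.Agent.DR.Gal.Defs
import Fermat.Agent.DR.Conc.XiAbs

/-!
# DR : the bridge from DR/Abs (nodal reduction, `Abs.Final`) to the two statements `Gal.Test`, `Gal.ExistsSec`
consumed by DR/Gal.

`T : MultiRed K F k (fun _ : Fin 2 => Fb)` a pair of reductions, `h : IsPreNodal T x N a₀`.
`toTwoRed T x xb S : Gal.TwoRed` is the corresponding datum of DR/Gal.

* `untwist` : a normalised pair `(f, c)` (`red₁ f = 1`, `red₂ (f / c ^ m) = 1`) is untwisted by a function `h₀` with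
  `red₁ h₀ = 1`, `red₂ (c h₀) = 1` (`T.Sep`): `f' = f h₀ ^ m` has `T.red f' = 1`.
* `test_of_isPreNodal`, `existsSec_of_isPreNodal`.
-/

set_option autoImplicit false
set_option linter.unusedSectionVars false

noncomputable section

namespace Fermat.Agent.DR.Bridge

open AlgebraicCurve Fermat.Agent.Lib.RR Fermat.Agent.GAL Fermat.Agent.GAL.RED Fermat.Agent.DR.Abs
  Fermat.Agent.DR.Gal

variable {K F k Fb : Type*} [Field K] [Field F] [Algebra K F] [Field k] [Field Fb] [Algebra k Fb]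

/-- The datum of DR/Gal attached to a pair of reductions. -/
def toTwoRed (T : MultiRed K F k (fun _ : Fin 2 => Fb)) (x : F) (xb : Fb) (S : Set (Place k Fb)) :
    TwoRed K F k Fb where
  R1 := T.R 0
  R2 := T.R 1
  j := x
  jb := xb
  S := S

/-- the untwisting function. -/
structure IsUntwist (T : MultiRed K F k (fun _ : Fin 2 => Fb)) (c : K) (h₀ : F) : Prop where
  red1 : (T.R 0).red h₀ = 1
  red2 : (T.R 1).red (algebraMap K F c * h₀) = 1

theorem exists_isUntwist {T : MultiRed K F k (fun _ : Fin 2 => Fb)} (hS : T.Sep) {c : K} (hc : c ≠ 0) :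
    ∃ h₀ : F, IsUntwist T c h₀ := by
  obtain ⟨h₀, hh⟩ := hS (fun _ => 1) ![1, c] (by
    rw [Fin.forall_fin_two]
    exact ⟨one_ne_zero, hc⟩)
  refine ⟨h₀, ?_, ?_⟩
  · have := (hh 0).2
    simpa using this
  · have := (hh 1).2
    rw [Algebra.smul_def] at this
    simpa using this

namespace IsUntwist

variable {T : MultiRed K F k (fun _ : Fin 2 => Fb)} {c : K} {h₀ : F}

theorem ne_zero (h : IsUntwist T c h₀) : h₀ ≠ 0 := by
  rintro rfl
  have := h.red1
  rw [RedData.red_zero] at this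
  exact zero_ne_one this

theorem mem1 (h : IsUntwist T c h₀) : h₀ ∈ (T.R 0).O :=
  (T.R 0).mem_of_red_ne_zero (by rw [h.red1]; exact one_ne_zero)

theorem mem2 (h : IsUntwist T c h₀) : algebraMap K F c * h₀ ∈ (T.R 1).O :=
  (T.R 1).mem_of_red_ne_zero (by rw [h.red2]; exact one_ne_zero)

/-- `f' = f h₀ ^ m` reduces to `1`. -/
theorem red_eq_one (h : IsUntwist T c h₀) {x : F} {xb : Fb} {S : Set (Place k Fb)} {m : ℕ} {f : F}
    (hf : IsNorm (toTwoRed T x xb S) m f c) : T.red (f * h₀ ^ m) = 1 := by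
  have hc : algebraMap K F c ≠ 0 := (map_ne_zero _).2 hf.c_ne
  funext i
  revert i
  rw [Fin.forall_fin_two]
  constructor
  · have h1 : (T.R 0).red f = 1 := hf.red1
    have hfO : f ∈ (T.R 0).O := (T.R 0).mem_of_red_ne_zero (by rw [h1]; exact one_ne_zero)
    rw [MultiRed.red_apply, (T.R 0).red_mul hfO (pow_mem h.mem1 m), (T.R 0).red_pow, h1, h.red1,
      one_pow, one_mul]
    rfl
  · have h1 : (T.R 1).red (f / algebraMap K F c ^ m) = 1 := hf.red2
    have hfO : f / algebraMap K F c ^ m ∈ (T.R 1).O :=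
      (T.R 1).mem_of_red_ne_zero (by rw [h1]; exact one_ne_zero)
    have e : f * h₀ ^ m = (f / algebraMap K F c ^ m) * (algebraMap K F c * h₀) ^ m := by
      rw [mul_pow]
      field_simp
    rw [MultiRed.red_apply, e, (T.R 1).red_mul hfO (pow_mem h.mem2 m), (T.R 1).red_pow, h1, h.red2,
      one_pow, one_mul]
    rfl

/-- divisibility of the divisor is preserved. -/
theorem dvd_ord (h : IsUntwist T c h₀) {m : ℕ} {f : F} (hf0 : f ≠ 0)
    (hdiv : ∀ P : Place K F, (m : ℤ) ∣ P.ord f) (P : Place K F) : (m : ℤ) ∣ P.ord (f * h₀ ^ m) := by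
  rw [P.ord_mul hf0 (pow_ne_zero m h.ne_zero), ord_pow]
  exact dvd_add (hdiv P) (dvd_mul_right _ _)

/-- a twisted section `y` gives the section `y / h₀`. -/
theorem red_div (h : IsUntwist T c h₀) (hc : c ≠ 0) {y : F} (hy1 : y ∈ (T.R 0).O)
    (hy2 : algebraMap K F c * y ∈ (T.R 1).O) :
    y / h₀ ∈ T.O ∧ (T.R 0).red (y / h₀) = (T.R 0).red y ∧
      (T.R 1).red (y / h₀) = (T.R 1).red (algebraMap K F c * y) := by
  have hc' : algebraMap K F c ≠ 0 := (map_ne_zero _).2 hc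
  have hh0 := h.ne_zero
  have n1 : (T.R 0).red h₀ ≠ 0 := by rw [h.red1]; exact one_ne_zero
  have n2 : (T.R 1).red (algebraMap K F c * h₀) ≠ 0 := by rw [h.red2]; exact one_ne_zero
  have e : y / h₀ = (algebraMap K F c * y) / (algebraMap K F c * h₀) := by
    field_simp
  have i1 : h₀⁻¹ ∈ (T.R 0).O := ((T.R 0).red_ne_zero_iff.1 n1).2.2
  have i2 : (algebraMap K F c * h₀)⁻¹ ∈ (T.R 1).O := ((T.R 1).red_ne_zero_iff.1 n2).2.2
  refine ⟨?_, ?_, ?_⟩
  · rw [MultiRed.mem_O, Fin.forall_fin_two]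
    constructor
    · rw [div_eq_mul_inv]
      exact mul_mem hy1 i1
    · rw [e, div_eq_mul_inv]
      exact mul_mem hy2 i2
  · rw [(T.R 0).red_div hy1 n1, h.red1, div_one]
  · rw [e, (T.R 1).red_div hy2 n2, h.red2, div_one]

end IsUntwist

section main

variable [IsFF K F] [IsAlgClosed K] [IsFF k Fb] [IsAlgClosed k] {E : Type*} [Fintype E]

theorem unitAt_iff {P : Place k Fb} {u : Fb} : UnitAt P u ↔ u ≠ 0 ∧ P.ord u = 0 := by
  unfold UnitAt
  rw [Lib.PlaceEval.mem_iff, Lib.PlaceEval.mem_iff, P.ord_inv]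
  constructor
  · rintro ⟨h0, h1, h2⟩
    exact ⟨h0, by omega⟩
  · rintro ⟨h0, h1⟩
    exact ⟨h0, by omega, by omega⟩

/-- a twisted section gives a section of the untwisted function with the same reduction. -/
theorem isSection_of_isSec {T : MultiRed K F k (fun _ : Fin 2 => Fb)} {x : F} {xb : Fb}
    {S : Set (Place k Fb)} {m : ℕ} {f : F} {c : K} {h₀ : F} (h : IsUntwist T c h₀) (hc : c ≠ 0)
    {y : F} {u u' : Fb} (hy : IsSec (toTwoRed T x xb S) m f c y u u') :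
    IsSection T x m (f * h₀ ^ m) (y / h₀) ∧ T.red (y / h₀) = ![u, u'] := by
  obtain ⟨hO, r1, r2⟩ := h.red_div hc hy.mem1 hy.mem2
  have hreg : y ^ m * f ∈ regOff K x := hy.reg
  obtain ⟨a, ha⟩ := Conc.exists_mem_rr_of_mem_regOff hreg
  have hh0 := h.ne_zero
  refine ⟨⟨hO, a, ?_⟩, ?_⟩
  · have e : (y / h₀) ^ m * (f * h₀ ^ m) = y ^ m * f := by
      rw [div_pow]
      field_simp
    rw [e]
    exact ha
  · funext i
    revert i
    rw [Fin.forall_fin_two]
    exact ⟨r1.trans hy.red1, r2.trans hy.red2⟩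

theorem isSection_one_of_isSec {T : MultiRed K F k (fun _ : Fin 2 => Fb)} {x : F} {xb : Fb}
    {S : Set (Place k Fb)} {m : ℕ} {z : F} {u u' : Fb}
    (hz : IsSec (toTwoRed T x xb S) m 1 1 z u u') :
    IsSection T x m 1 z ∧ T.red z = ![u, u'] := by
  have hreg : z ^ m * 1 ∈ regOff K x := hz.reg
  obtain ⟨a, ha⟩ := Conc.exists_mem_rr_of_mem_regOff hreg
  have h2 := hz.mem2
  have r2 := hz.red2
  rw [map_one, one_mul] at h2 r2
  refine ⟨⟨?_, a, ha⟩, ?_⟩
  · rw [MultiRed.mem_O, Fin.forall_fin_two]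
    exact ⟨hz.mem1, h2⟩
  · funext i
    revert i
    rw [Fin.forall_fin_two]
    exact ⟨hz.red1, r2⟩

/-- **(T)** from the nodal reduction. -/
theorem test_of_isPreNodal {T : MultiRed K F k (fun _ : Fin 2 => Fb)} {x : F}
    {N : NodeData k (fun _ : Fin 2 => Fb) E} {a₀ : ℕ} (h : IsPreNodal T x N a₀) (xb : Fb)
    (S : Set (Place k Fb)) (hS : ∀ e, N.p₂ e ∈ S) {m : ℕ} (hm : (m : k) ≠ 0) :
    Test (toTwoRed T x xb S) m := by
  intro f hf c hfc y z u u' hy hz hunit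
  have hm0 : 0 < m := Nat.pos_of_ne_zero (fun h0 => hm (by rw [h0, Nat.cast_zero]))
  obtain ⟨h₀, hh⟩ := exists_isUntwist h.sep hfc.c_ne
  obtain ⟨hy1, hy2⟩ := isSection_of_isSec hh hfc.c_ne hy
  obtain ⟨hz1, hz2⟩ := isSection_one_of_isSec hz
  have hgl := glued_of_isSection_one h hm0 hz1
  rw [hz2, ← hy2] at hgl
  have hunit' : ∀ (i : Fin 2) (P : Place k Fb), P ∈ S → T.red (y / h₀) i ≠ 0 ∧
      P.ord (T.red (y / h₀) i) = 0 := by
    rw [hy2, Fin.forall_fin_two]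
    exact ⟨fun P hP => unitAt_iff.1 (hunit P hP).1, fun P hP => unitAt_iff.1 (hunit P hP).2⟩
  obtain ⟨w, hw⟩ := isPow_of_sections h hm (hh.dvd_ord f.ne_zero (mem_kummerUnits.1 hf))
    (hh.red_eq_one hfc) (fun _ => 1) (fun _ => one_ne_zero) (fun e => ⟨y / h₀, hy1, by
      have h1 := hunit' (N.i₂ e) (N.p₂ e) (hS e)
      exact (ev_ne_zero_iff (N.p₂ e) (le_of_eq h1.2.symm)).2 h1, by
      rw [mul_one]
      exact hgl e⟩)
  have hh0 := hh.ne_zero
  have hfw : (f : F) = (w / h₀) ^ m := by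
    rw [div_pow, ← hw]
    field_simp
  have hw0 : w / h₀ ≠ 0 := by
    intro h0
    rw [h0, zero_pow hm0.ne'] at hfw
    exact f.ne_zero hfw
  refine ⟨Units.mk0 _ hw0, ?_⟩
  apply Units.ext
  rw [Units.val_pow_eq_pow_val, Units.val_mk0, hfw]

/-- **(E)** from the nodal reduction. -/
theorem existsSec_of_isPreNodal {T : MultiRed K F k (fun _ : Fin 2 => Fb)} {x : F}
    {N : NodeData k (fun _ : Fin 2 => Fb) E} {a₀ : ℕ} (h : IsPreNodal T x N a₀) (xb : Fb)
    (hxb : ∀ i, (T.R i).red x = xb)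
    (S : Set (Place k Fb)) (hSfin : S.Finite) (hS : ∀ P ∈ S, 0 ≤ P.ord xb) {m : ℕ}
    (hm : (m : k) ≠ 0) :
    ExistsSec (toTwoRed T x xb S) m := by
  intro f hf c hfc
  have hm0 : 0 < m := Nat.pos_of_ne_zero (fun h0 => hm (by rw [h0, Nat.cast_zero]))
  obtain ⟨h₀, hh⟩ := exists_isUntwist h.sep hfc.c_ne
  have hh0 := hh.ne_zero
  have hred := hh.red_eq_one hfc
  obtain ⟨y, hy, hyS⟩ := exists_section h hm
    (hh.dvd_ord f.ne_zero (mem_kummerUnits.1 hf)) hred (fun _ => hSfin.toFinset)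
    (fun i P hP => by
      rw [hxb i]
      exact hS P (hSfin.mem_toFinset.1 hP))
  have hreg := fun i => hy.regular h hm0 hred i
  obtain ⟨hyO, a, ha⟩ := hy
  have hy0 : y ∈ (T.R 0).O := hyO 0
  have hy1 : y ∈ (T.R 1).O := hyO 1
  have e2 : algebraMap K F c * (y * h₀) = y * (algebraMap K F c * h₀) := by ring
  refine ⟨y * h₀, (T.R 0).red y, (T.R 1).red y, ⟨?_, ?_, ?_, ?_, ?_⟩, ?_, ?_, ?_⟩
  · have e : (y * h₀) ^ m * (f : F) = y ^ m * ((f : F) * h₀ ^ m) := by
      rw [mul_pow]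
      ring
    rw [e]
    exact Conc.mem_regOff_of_mem_rr ha
  · exact mul_mem hy0 hh.mem1
  · rw [e2]
    exact mul_mem hy1 hh.mem2
  · show (T.R 0).red (y * h₀) = _
    rw [(T.R 0).red_mul hy0 hh.mem1, hh.red1, mul_one]
  · show (T.R 1).red (algebraMap K F c * (y * h₀)) = _
    rw [e2, (T.R 1).red_mul hy1 hh.mem2, hh.red2, mul_one]
  · intro P hP
    rw [Lib.PlaceEval.mem_iff] at hP ⊢
    exact hreg 0 P (by rw [hxb 0]; exact hP)
  · intro P hP
    rw [Lib.PlaceEval.mem_iff] at hP ⊢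
    exact hreg 1 P (by rw [hxb 1]; exact hP)
  · intro P hP
    exact ⟨unitAt_iff.2 (hyS 0 P (hSfin.mem_toFinset.2 hP)),
      unitAt_iff.2 (hyS 1 P (hSfin.mem_toFinset.2 hP))⟩

end main

end Fermat.Agent.DR.Bridge
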