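import Fermat.Agent.GAL.Hecke.HeckeBasic
import Fermat.Agent.GAL.Interface
import Fermat.Agent.GAL.Hecke.AtkinLehner
import Fermat.Agent.GAL.KVGalois

set_option autoImplicit false

/-!
# Project DR (S34, S35): interface between the geometric blocks and the assemblies

Level `N = M * q` with `q` a prime not dividing `M` (same convention as `heckeAlphaBar Kbar M q`).
On the Kummer model `V_m(F(N)) = KV Kbar (FN (M * q)) m`:

* `wq M q`      : the Atkin-Lehner involution of the function field `FN (M * q)`;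
* `wKV M q m`   : its action on `V_m(F(M q))`;
* `alphaKV M q m` : the norm `V_m(F(M q)) → V_m(F(M))` along `heckeAlphaBar Kbar M q`;
* `KVDegen M q`     : formal compatibilities of `wKV`, `alphaKV` (block DR-HECKE);
* `KVUnipotent M q p` : (DR1) `(σ - 1)(τ - 1) = 0` for `σ τ` in an inertia group over `q`;
* `KVNewFrob M q p`   : (DR3) `(φ + q w)(φ + w) = 0` on `ker α_* ∩ ker α_* w`, `φ` a Frobenius at `q`.

The last two are allowed to hold only up to a fixed nonzero integer `d` (independent of the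
exponent `k`): this is harmless on the Tate module and makes the passage to a neat
auxiliary level (`lcm M 4` or `lcm M 9`) painless.
-/

noncomputable section

namespace Fermat.Agent.DR

open AlgebraicCurve ModularCurve Fermat.Agent.S24 Fermat.Agent.GAL Fermat.Agent.GAL.Hecke

variable (M q : ℕ) [NeZero M] [NeZero q]

open Classical in
/-- The Atkin-Lehner involution `w_q` of the function field of `X₀(M q)` (the identity if `q` is
not a prime not dividing `M`). -/
def wq : FN (M * q) →ₐ[Kbar] FN (M * q) :=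
  if h : q.Prime ∧ ¬ q ∣ M then (AtkinLehner.exists_atkinLehner M q h.1 h.2).choose
  else AlgHom.id Kbar _

variable {M q}

theorem wq_comp_alpha (hq : q.Prime) (hqM : ¬ q ∣ M) :
    (wq M q).comp (heckeAlphaBar Kbar M q) = heckeBetaBar Kbar M q := by
  rw [wq, dif_pos ⟨hq, hqM⟩]
  exact (AtkinLehner.exists_atkinLehner M q hq hqM).choose_spec.1

theorem wq_comp_beta (hq : q.Prime) (hqM : ¬ q ∣ M) :
    (wq M q).comp (heckeBetaBar Kbar M q) = heckeAlphaBar Kbar M q := by
  rw [wq, dif_pos ⟨hq, hqM⟩]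
  exact (AtkinLehner.exists_atkinLehner M q hq hqM).choose_spec.2.1

variable (M q)

theorem wq_comp_wq : (wq M q).comp (wq M q) = AlgHom.id Kbar _ := by
  by_cases h : q.Prime ∧ ¬ q ∣ M
  · rw [wq, dif_pos h]
    exact (AtkinLehner.exists_atkinLehner M q h.1 h.2).choose_spec.2.2
  · rw [wq, dif_neg h]
    rfl

theorem wq_wq (x : FN (M * q)) : wq M q (wq M q x) = x :=
  AlgHom.congr_fun (wq_comp_wq M q) x

theorem wq_isIntegral : (wq M q).toRingHom.IsIntegral :=
  RingHom.isIntegral_of_surjective _ fun x => ⟨wq M q x, wq_wq M q x⟩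

/-- `w_q` on the Kummer model. -/
def wKV (m : ℕ) : KV Kbar (FN (M * q)) m →+ KV Kbar (FN (M * q)) m :=
  KV.map (Units.map ((wq M q : FN (M * q) →ₐ[Kbar] FN (M * q)) : FN (M * q) →* FN (M * q)))
    (fun _ hu => map_mem_kummerUnits (wq M q) (wq_isIntegral M q) hu)

/-- The push-forward `α_*` (norm along the degeneracy map `heckeAlphaBar`) on the Kummer model. -/
def alphaKV (m : ℕ) : KV Kbar (FN (M * q)) m →+ KV Kbar (FN M) m :=
  KV.map (Units.map (normAlong (heckeAlphaBar Kbar M q)))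
    (fun _ hu => normAlong_mem_kummerUnits (heckeAlphaBar Kbar M q) (finiteAlong_alpha M q) hu)

theorem wKV_wKV (m : ℕ) (x : KV Kbar (FN (M * q)) m) : wKV M q m (wKV M q m x) = x := by
  obtain ⟨u, rfl⟩ := KV.mk_surjective x
  rw [wKV, KV.map_mk, KV.map_mk]
  congr 1
  apply Subtype.ext
  apply Units.ext
  exact wq_wq M q _

/-- **Formal compatibilities of the degeneracy operators** (to be delivered by DR-HECKE). -/
structure KVDegen : Prop where
  w_galois : ∀ (m : ℕ) (σ : GQ) (x : KV Kbar (FN (M * q)) m),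
    wKV M q m (σ • x) = σ • wKV M q m x
  w_red : ∀ (m m' : ℕ) (h : m ∣ m') (x : KV Kbar (FN (M * q)) m'),
    KV.red h (wKV M q m' x) = wKV M q m (KV.red h x)
  w_hecke : ∀ (m ℓ : ℕ) [NeZero ℓ], ℓ.Prime → ¬ ℓ ∣ M * q → ∀ x : KV Kbar (FN (M * q)) m,
    wKV M q m (heckeT Kbar (M * q) ℓ m x) = heckeT Kbar (M * q) ℓ m (wKV M q m x)
  alpha_galois : ∀ (m : ℕ) (σ : GQ) (x : KV Kbar (FN (M * q)) m),
    alphaKV M q m (σ • x) = σ • alphaKV M q m x
  alpha_red : ∀ (m m' : ℕ) (h : m ∣ m') (x : KV Kbar (FN (M * q)) m'),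
    KV.red h (alphaKV M q m' x) = alphaKV M q m (KV.red h x)
  alpha_hecke : ∀ (m ℓ : ℕ) [NeZero ℓ], ℓ.Prime → ¬ ℓ ∣ M * q → ∀ x : KV Kbar (FN (M * q)) m,
    alphaKV M q m (heckeT Kbar (M * q) ℓ m x) = heckeT Kbar M ℓ m (alphaKV M q m x)

/-- **(DR1)** inertia at `q ∥ M q` acts unipotently on `V_{p^k}(F(M q))`. -/
def KVUnipotent (p : ℕ) : Prop :=
  ∃ d : ℕ, d ≠ 0 ∧ ∀ (k : ℕ) (A : ValuationSubring (AlgebraicClosure ℚ)), A.LiesOverPrime q →
    ∀ σ ∈ A.inertiaSubgroupIn ℚ, ∀ τ ∈ A.inertiaSubgroupIn ℚ,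
      ∀ x : KV Kbar (FN (M * q)) (p ^ k), d • (σ • τ • x - σ • x - τ • x + x) = 0

/-- **(DR3)** `(φ + q w)(φ + w) = 0` on the `q`-new part of `V_{p^k}(F(M q))`, for every Frobenius
element `φ` at `q`. -/
def KVNewFrob (p : ℕ) : Prop :=
  ∃ d : ℕ, d ≠ 0 ∧ ∀ (k : ℕ) (A : ValuationSubring (AlgebraicClosure ℚ)), A.LiesOverPrime q →
    ∀ σ : GQ, A.IsFrobeniusAt σ q → ∀ x : KV Kbar (FN (M * q)) (p ^ k),
      alphaKV M q (p ^ k) x = 0 → alphaKV M q (p ^ k) (wKV M q (p ^ k) x) = 0 →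
        d • (σ • σ • x + (q + 1) • σ • wKV M q (p ^ k) x + q • x) = 0

end Fermat.Agent.DR
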