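import Fermat.Agent.DR.Bridge
import Fermat.Agent.DR.Abs.Nodal.Bridge
import Fermat.Agent.DR.Conc.Main
import Fermat.Agent.DR.Gal.Main
import Fermat.Agent.DR.S34.Final
import Fermat.Agent.GAL.Igusa.Final

/-!
# DR : final assembly.  `PairHyp` for the pair `(R1, R2)` at level `M q` gives `Gal.DRGeom`.

* `drGeom_of_pairHyp` : `Nodal.PairHyp (Conc.TT ..) x X σb` (with `X.Φ = Fr • ·`, `X.Φs = Phi`), `x` invariant under the
  decomposition group and under `W`, `σb` invariant under `FrE`  ⟹  `Gal.DRGeom A M q hq hqM hA m` for `m` invertible in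
  the residue field.  (`S = Fix (Φ²)`.)
-/

set_option autoImplicit false
set_option linter.unusedSectionVars false

noncomputable section

namespace Fermat.Agent.DR.Final

open ModularCurve AlgebraicCurve Fermat.Agent.S24 Fermat.Agent.GAL Fermat.Agent.GAL.RED
  Fermat.Agent.Lib.RR Fermat.Agent.DR.Gal Fermat.Agent.GAL.Igusa

variable (A : ValuationSubring Kbar) (M q : ℕ) [NeZero M] [NeZero q] (hq : q.Prime)
  (hqM : ¬ q ∣ M) (hA : A.LiesOverPrime q)

variable [Fact q.Prime] [CharP (IsLocalRing.ResidueField ↥A) q]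
  [PerfectRing (IsLocalRing.ResidueField ↥A) q]

/-- `regOff` and semilinear automorphisms fixing the coordinate. -/
theorem smul_mem_regOut {k Fb : Type*} [Field k] [Field Fb] [Algebra k Fb] [Lib.RR.IsFF k Fb]
    [IsAlgClosed k] (g : SemilinearAut k Fb) {σb v : Fb} (hg : g • σb = σb) (hv : v ∈ regOff k σb) :
    g • v ∈ Nodal.regOut (Nodal.polesOf (k := k) σb) := by
  intro P hP
  have hP' : 0 ≤ P.ord σb := not_lt.1 hP
  have e1 : (g⁻¹ • P).ord σb = P.ord σb := by
    have := SemilinearAut.ord_smul g (g⁻¹ • P) σb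
    rw [smul_inv_smul, hg] at this
    exact this.symm
  have e2 : P.ord (g • v) = (g⁻¹ • P).ord v := by
    have := SemilinearAut.ord_smul g (g⁻¹ • P) v
    rwa [smul_inv_smul] at this
  rw [Lib.PlaceEval.mem_iff, e2, ← Lib.PlaceEval.mem_iff]
  apply hv
  rw [Lib.PlaceEval.mem_iff, e1]
  exact hP'

theorem drGeom_of_pairHyp [Lib.RR.IsFF Kbar (FN (M * q))] [IsAlgClosed (IsLocalRing.ResidueField ↥A)]
    [Lib.RR.IsFF (IsLocalRing.ResidueField ↥A) (E (IsLocalRing.ResidueField ↥A) M)]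
    {x : FN (M * q)} {σb : E (IsLocalRing.ResidueField ↥A) M}
    {X : Nodal.Frob (IsLocalRing.ResidueField ↥A) (E (IsLocalRing.ResidueField ↥A) M)}
    (hΦ : ∀ P, X.Φ P = Conc.Fr (IsLocalRing.ResidueField ↥A) M q • P)
    (hΦs : ∀ u, X.Φs u = Conc.Phi (IsLocalRing.ResidueField ↥A) M q u)
    (h : Nodal.PairHyp (Conc.TT A M q hq hqM hA) x X σb)
    (hgal : ∀ σ ∈ A.decompositionSubgroup ℚ, gal (M * q) σ • x = x)
    (hW : Conc.W M q hq hqM x = x)
    (hFr : Conc.FrE (IsLocalRing.ResidueField ↥A) M q σb = σb)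
    {m : ℕ} (hm : (m : IsLocalRing.ResidueField ↥A) ≠ 0) : DRGeom A M q hq hqM hA m := by
  classical
  obtain ⟨a₀, hN⟩ := h.isPreNodal
  haveI : Fintype ↥(h.filt.nodes) := h.filt.finite_nodes.fintype
  have hSfin : {P | X.Φ (X.Φ P) = P}.Finite := by
    refine (Nodal.finite_fix X (Nodal.polesOf (k := IsLocalRing.ResidueField ↥A) σb) h.pole
      (Nodal.Φ_mem_polesOf_iff X h.Φs_σ)).subset ?_
    intro P hP
    refine ⟨fun hpole => ?_, hP⟩
    have h0 := h.fix_unit P hP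
    have h1 : P.ord σb < 0 := hpole
    omega
  refine ⟨x, σb, {P | X.Φ (X.Φ P) = P}, ?_, ?_, ?_, ?_, ?_, ?_, ?_⟩
  · intro σ hσ
    rw [hgal σ hσ]
    exact self_mem_regOff x
  · rw [hW]
    exact self_mem_regOff x
  · intro P hP
    have hP' : Conc.Fr (IsLocalRing.ResidueField ↥A) M q •
        Conc.Fr (IsLocalRing.ResidueField ↥A) M q • P = P := by
      have : X.Φ (X.Φ P) = P := hP
      rwa [hΦ, hΦ] at this
    show X.Φ (X.Φ _) = _
    rw [hΦ, hΦ, smul_inv_smul]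
    conv_rhs => rw [← hP', inv_smul_smul]
  · exact Bridge.test_of_isPreNodal hN σb _ (fun e => e.2.2.1) hm
  · exact Bridge.existsSec_of_isPreNodal hN σb h.red_x _ hSfin
      (fun P hP => (h.fix_unit P hP).ge) hm
  · exact Conc.pairSurj A M q hq hqM hA
  · intro v hv
    have hv' : v ∈ regOff (IsLocalRing.ResidueField ↥A) σb := hv
    obtain ⟨a, y, hy, hyO, h0, h1⟩ := h.old (Conc.FrE (IsLocalRing.ResidueField ↥A) M q v)
      (smul_mem_regOut (Conc.Fr (IsLocalRing.ResidueField ↥A) M q) hFr hv')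
    refine ⟨y, Conc.mem_regOff_of_mem_rr hy, hyO 0, hyO 1, h0, ?_⟩
    rw [hΦs, Conc.Phi_FrE] at h1
    exact h1

omit [Fact q.Prime] [CharP (IsLocalRing.ResidueField ↥A) q]
  [PerfectRing (IsLocalRing.ResidueField ↥A) q] in
/-- **`DRGeom` at neat levels.** -/
theorem drGeomAll_of_neat (hneat : 4 ∣ M ∨ 9 ∣ M) {p : ℕ} (hp : p.Prime) (hqp : q ≠ p) :
    DRGeomAll M q hq hqM p := by
  intro A hA _ _ _ k
  haveI : Lib.RR.IsFF Kbar (FN (M * q)) := Fermat.Agent.GAL.Desc.isFF_FF_Kbar (M * q)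
  haveI : Lib.RR.IsFF Kbar (FN M) := Fermat.Agent.GAL.Desc.isFF_FF_Kbar M
  haveI := Igusa.isAlgClosed_residueField A
  have hM := Conc.natCast_M_ne_zero A M q hq hqM hA
  haveI := Igusa.isFF_E (IsLocalRing.ResidueField ↥A) M hM
  have hg : Conc.GoodRed A M := Conc.goodRed_of_neat A M hM Igusa.cuspUpper Igusa.cuspLower hneat
  refine drGeom_of_pairHyp A M q hq hqM hA (fun _ => rfl) (fun _ => rfl)
    (Conc.pairHyp A M q hq hqM hA hg) (fun σ _ => Conc.gal_xC M q σ) (Conc.W_xC M q hq hqM)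
    (Conc.FrE_sig _ M q) ?_
  refine natCast_residueField_ne_zero A hq hA (fun h => hqp ?_)
  exact (Nat.prime_dvd_prime_iff_eq hq hp).1 (hq.dvd_of_dvd_pow h)

/-- **The geometric input of S34 and S35.** -/
theorem drGeomNeat : S34.DRGeomNeat :=
  fun M q _ _ _ hq hqM hneat hp hqp => drGeomAll_of_neat M q hq hqM hneat hp hqp

end Fermat.Agent.DR.Final
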