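import Fermat.Agent.DR.Final
import Fermat.Agent.DR.Hecke.DR3
import Fermat.Agent.DR.Hecke.Degen
import Fermat.Agent.DR.S35.Tower
import Fermat.Agent.DR.S35.Final
import Fermat.Agent.Lib.FrobDensity.GALInterface

/-!
# DR : final assembly for S35.  `NewInput` from `drGeomNeat`.
-/

set_option autoImplicit false

namespace Fermat.Agent.DR.Final

open Fermat.Agent.GAL Fermat.Agent.S24 Fermat.Agent.GAL.Tors

/-- (DR3) at all levels. -/
theorem kvNewFrob_all (M q p : ℕ) [NeZero M] [NeZero q] (hq : q.Prime) (hqM : ¬ q ∣ M)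
    (hp : p.Prime) (hqp : q ≠ p) : KVNewFrob M q p :=
  Gal.kvNewFrob_of_neat
    (fun M q p _ _ hneat hq hqM hp hqp =>
      Hecke.kvNewFrob_of_DR2 M q hq hqM hp.pos
        (Gal.dr2_of_DRGeom M q hq hqM (drGeomNeat M q p hq hqM hneat hp hqp)))
    M q p hq hqM hp hqp

/-- **The input of S35.** -/
theorem newInput : NewInput :=
  newInput_of (fun N _ => nonempty_torsDatum' N)
    (fun N p _ _ => kvUnramified_of_injAt N p (S34.injAt_all N p))
    (fun N p _ _ => kvFrobRel_of_injAt N p (S34.injAt_all N p))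
    (fun M q _ _ hq hqM => Hecke.kvDegen hq hqM)
    (fun M q p _ _ hq hqM hp hqp => kvNewFrob_all M q p hq hqM hp hqp)

end Fermat.Agent.DR.Final
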