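import Fermat.Agent.GAL.S31.Final
import Fermat.Prelude.Def_GaloisRep_LocalConditions

/-!
# S34 from an Eichler--Shimura datum with unipotent inertia at `q`

`s34_of_unipInput` is the exact statement S34 with the single extra hypothesis `UnipInput`:
for every level `N`, prime `p` and prime `q ≠ p` with `q ∥ N` there is an Eichler--Shimura datum
`D : ESDatumAt N M p` on which every element `τ` of an inertia group at `q` satisfies
`(D.ρ τ - 1) ^ 2 = 0`.

The proof is the trace argument of `GAL/S31/Abstract.lean`: `tr ρ(τ)` is (`p`-adically close to) the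
image of a Hecke operator `t` which acts on the lattice as `τ + τ⁻¹ = 2`.
-/

set_option autoImplicit false

namespace Fermat.Agent.DR

open Module Polynomial Fermat.Agent.GAL Fermat.Agent.GAL.S31

local notation "Γℚ" => (AlgebraicClosure ℚ ≃ₐ[ℚ] AlgebraicClosure ℚ)

section RankTwo

variable {T : Type*} [CommRing T] [Nontrivial T] {V : Type*} [AddCommGroup V] [Module T V]
  [Module.Free T V] [Module.Finite T V]

theorem charpoly_eq_trace_det (hV : Module.finrank T V = 2) (x : Module.End T V) :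
    LinearMap.charpoly x = X ^ 2 - C (LinearMap.trace T V x) * X + C (LinearMap.det x) := by
  classical
  let b := Module.finBasisOfFinrankEq T V hV
  rw [← LinearMap.charpoly_toMatrix x b, Matrix.charpoly_fin_two,
    LinearMap.trace_eq_matrix_trace T b, LinearMap.det_toMatrix]

/-- In rank two, `tr x = 2 = tr x²` forces `charpoly x = (X - 1)²` (if `2` is regular). -/
theorem charpoly_eq_of_trace_eq_two (hV : Module.finrank T V = 2) (x : Module.End T V)
    (h2 : ∀ y : T, 2 * y = 0 → y = 0) (h1 : LinearMap.trace T V x = 2)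
    (hsq : LinearMap.trace T V (x ^ 2) = 2) : LinearMap.charpoly x = (X - 1) ^ 2 := by
  have hc := charpoly_eq_trace_det hV x
  have h3 := trace_pow_eq_dickson hV x _ _ hc 2
  rw [hsq, show (2 : ℕ) = 0 + 2 from rfl, S31.dickson_add_two, zero_add, S31.dickson_one,
    S31.dickson_zero, h1] at h3
  have h4 : LinearMap.det x = 1 := by
    have : 2 * (LinearMap.det x - 1) = 0 := by linear_combination h3
    exact sub_eq_zero.mp (h2 _ this)
  rw [hc, h1, h4]
  simp only [map_ofNat, map_one]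
  ring

end RankTwo

section Main

variable {T : Type} [CommRing T] [IsLocalRing T]
  {p : ℕ} {S : Finset ℕ} {H : Type} [Ring H] {X : ℕ → H}
  {L : Type} [AddCommGroup L] [Module.Free ℤ L] [Module.Finite ℤ L] {actL : H →+* Module.End ℤ L}

/-- The trace of an element acting unipotently on all the levels `L / p^K` and trivially on the
`p`-power roots of unity is `2`. -/
theorem trace_eq_two_of_levelData [IsNoetherianRing T] (ρ : GaloisRepAdic T)
    (πH : H →+* T) (hp : p.Prime)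
    (hpT : (p : T) ∈ IsLocalRing.maximalIdeal T) (hpS : p ∈ S)
    (hchar : ∀ ℓ : ℕ, ℓ.Prime → ℓ ∉ S → ∀ A : ValuationSubring (AlgebraicClosure ℚ),
      A.LiesOverPrime ℓ → ∀ σ : Γℚ, A.IsFrobeniusAt σ ℓ →
        LinearMap.charpoly (ρ.ρ σ) = Polynomial.X ^ 2 - C (πH (X ℓ)) * Polynomial.X + C ((ℓ : T)))
    (hker : ∀ t : H, actL t = 0 → πH t = 0)
    (hdens : FrobDense S) (i : Γℚ)
    (hroot : ∀ (K : ℕ) (ζ : AlgebraicClosure ℚ), ζ ^ (p ^ K) = 1 → i ζ = ζ)
    (hlev : ∀ K : ℕ, ∃ D : LevelDatum p S X actL K, (D.actG i - 1) * (D.actG i - 1) = 0) :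
    LinearMap.trace T ρ.V (ρ.ρ i) = 2 := by
  obtain ⟨a, ha⟩ := exists_artinRees actL p
  have key : ∀ k : ℕ, LinearMap.trace T ρ.V (ρ.ρ i) - 2 ∈ IsLocalRing.maximalIdeal T ^ k := by
    intro k
    obtain ⟨D, hD⟩ := hlev (k + a)
    have hne : NeZero (p ^ (k + a)) := ⟨pow_ne_zero _ hp.ne_zero⟩
    obtain ⟨ζ, hζ⟩ := HasEnoughRootsOfUnity.exists_primitiveRoot (AlgebraicClosure ℚ) (p ^ (k + a))
    obtain ⟨t, c, ht, hc, hW⟩ := approx ρ πH hp hpS hchar hdens k D hζ.pow_eq_one i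
    have hcc : ζ ^ c = ζ ^ 1 := by
      rw [← hc, pow_one, hroot (k + a) ζ hζ.pow_eq_one]
    have hmod : (1 : ℤ) ≡ c [ZMOD (p ^ (k + a) : ℕ)] := by
      have hζ0 : ζ ≠ 0 := hζ.ne_zero hne.out
      have h1 : ζ ^ ((c : ℤ) - (1 : ℤ)) = 1 := by
        rw [zpow_sub₀ hζ0, zpow_natCast, zpow_one, hcc, pow_one, div_self hζ0]
      exact (Int.modEq_iff_dvd).mpr ((hζ.zpow_eq_one_iff_dvd _).mp h1)
    -- `u + u⁻¹ = 2`
    have hxy : D.actG i * D.actG i⁻¹ = 1 := by rw [← map_mul, mul_inv_cancel, map_one]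
    have hsum : D.actG i + D.actG i⁻¹ = 2 := by
      have h1 : (D.actG i - 1) * (D.actG i - 1) * D.actG i⁻¹ = 0 := by rw [hD, zero_mul]
      have h2 : (D.actG i - 1) * (D.actG i - 1) * D.actG i⁻¹ =
          D.actG i * (D.actG i * D.actG i⁻¹) - 2 * (D.actG i * D.actG i⁻¹) + D.actG i⁻¹ := by
        noncomm_ring
      rw [h2, hxy, mul_one, mul_one] at h1
      have : D.actG i + D.actG i⁻¹ = (D.actG i - 2 + D.actG i⁻¹) + 2 := by abel
      rw [this, h1, zero_add]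
    have hδ : ∀ x : L, ∃ y : L, actL (t - 2) x = (p ^ (k + a) : ℤ) • y := by
      intro x
      apply D.ker_e
      have h2 : D.actH (2 : H) = 2 := map_ofNat D.actH 2
      rw [D.e_actL, map_sub, LinearMap.sub_apply, hW, h2, ← hsum, LinearMap.add_apply,
        add_sub_add_left_eq_sub]
      obtain ⟨m, hm⟩ := hmod.dvd
      have h3 : c • D.actG i⁻¹ (D.e x) - D.actG i⁻¹ (D.e x) =
          ((c : ℤ) - 1) • D.actG i⁻¹ (D.e x) := by
        rw [sub_smul, one_smul, natCast_zsmul]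
      rw [h3, hm, mul_comm, mul_smul, ← map_zsmul]
      have := D.pow_smul_e x
      push_cast
      rw [this, map_zero, smul_zero]
    obtain ⟨δ', hδ'⟩ := ha k (t - 2) hδ
    have h1 := hker _ hδ'
    rw [map_sub, map_sub, map_mul, map_pow, map_natCast, map_ofNat, sub_eq_zero] at h1
    have h2 : πH t - 2 ∈ IsLocalRing.maximalIdeal T ^ k := by
      rw [h1]
      exact Ideal.mul_mem_right _ _ (Ideal.pow_mem_pow hpT k)
    have h3 : LinearMap.trace T ρ.V (ρ.ρ i) - 2 =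
        (LinearMap.trace T ρ.V (ρ.ρ i) - πH t) + (πH t - 2) := by ring
    rw [h3]
    exact Ideal.add_mem _ ht h2
  have hkrull := Ideal.iInf_pow_eq_bot_of_isLocalRing (IsLocalRing.maximalIdeal T)
    (Ideal.IsPrime.ne_top inferInstance)
  have : LinearMap.trace T ρ.V (ρ.ρ i) - 2 ∈ (⨅ k, IsLocalRing.maximalIdeal T ^ k : Ideal T) := by
    rw [Ideal.mem_iInf]
    exact key
  rw [hkrull, Ideal.mem_bot, sub_eq_zero] at this
  exact this

end Main

/-- **What the geometric side has to deliver for S34**: for `q ∥ N`, `q ≠ p`, an Eichler--Shimura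
datum for level `N` on which the inertia groups at `q` act unipotently (of order two). -/
def UnipInput : Prop :=
  ∀ (N p : ℕ) [NeZero N] [Fact p.Prime] (q : ℕ), q.Prime → q ≠ p → q ∣ N → ¬ q ^ 2 ∣ N →
    ∃ (M : ℕ) (D : ESDatumAt N M p), M ≠ 0 ∧
      ∀ P : ValuationSubring (AlgebraicClosure ℚ), P.LiesOverPrime q →
        ∀ σ ∈ P.inertiaSubgroupIn ℚ, (D.ρ σ - 1) * (D.ρ σ - 1) = 0

section Final

open CuspForm

variable {p : ℕ} {N : ℕ} [NeZero N] {S : Finset ℕ}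
  {𝒪 : Type} [CommRing 𝒪] [IsDomain 𝒪] [IsDiscreteValuationRing 𝒪]
  [IsAdicComplete (IsLocalRing.maximalIdeal 𝒪) 𝒪]
  {θ : CuspForm.heckeAlgebra N 2 (↑S : Set ℕ) →+* IsLocalRing.ResidueField 𝒪}
  {T : Type} [CommRing T] [IsLocalRing T] [IsNoetherianRing T]
  [IsAdicComplete (IsLocalRing.maximalIdeal T) T] [Algebra 𝒪 T] [IsLocalHom (algebraMap 𝒪 T)]
  [Module.Finite 𝒪 T] [Module.Free 𝒪 T]

/-- The trace of `H.ρ` at an element acting unipotently on an Eichler--Shimura datum. -/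
theorem trace_eq_two_of_esDatumAt [Fact p.Prime] {M : ℕ} (hM : M ≠ 0) (D : ESDatumAt N M p)
    (hdens : FrobeniusDensity)
    (hp𝒪 : (p : 𝒪) ∈ IsLocalRing.maximalIdeal 𝒪) (hpS : p ∈ S)
    (hNS : ∀ q : ℕ, q.Prime → q ∣ N → q ∈ S)
    (H : CuspForm.HeckeGaloisRepDatum N (↑S : Set ℕ) 𝒪 θ T) (i : Γℚ)
    (hroot : ∀ (K : ℕ) (ζ : AlgebraicClosure ℚ), ζ ^ (p ^ K) = 1 → i ζ = ζ)
    (hi : (D.ρ i - 1) * (D.ρ i - 1) = 0) :
    LinearMap.trace T H.ρ.V (H.ρ.ρ i) = 2 := by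
  refine trace_eq_two_of_levelData (p := p) (S := S ∪ M.primeFactors) (X := FreeAlgebra.ι ℤ)
    (actL := (matEnd ℤ D.r).comp (toMat D S).toRingHom) H.ρ
    (H.π.comp (toHecke (N := N) S M).toRingHom) Fact.out ?_ (Finset.mem_union_left _ hpS) ?_ ?_
    (frobDense_of_frobeniusDensity hdens _) i hroot
    (fun K => ⟨levelDatum D S hM hpS hNS K, ?_⟩)
  · have := map_nonunit (algebraMap 𝒪 T) (p : 𝒪) hp𝒪
    rwa [map_natCast] at this
  · intro ℓ hℓ hℓS A hA σ hσ
    have hℓS₀ : ℓ ∉ S := fun h => hℓS (Finset.mem_union_left _ h)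
    have hℓN : ¬ ℓ ∣ N := fun h => hℓS₀ (hNS ℓ hℓ h)
    have hℓS' : ℓ ∉ (↑S : Set ℕ) := by simpa using hℓS₀
    rw [H.charpoly_frob ℓ hℓ hℓN hℓS' A hA σ hσ, RingHom.comp_apply]
    have : (toHecke (N := N) S M).toRingHom (FreeAlgebra.ι ℤ ℓ) = heckeAlgebra.T hℓ hℓN hℓS' :=
      toHecke_ι S hℓ hℓN hℓS' (not_dvd_of_notMem S hM hℓ hℓS)
    rw [this]
  · intro t ht
    have h1 : toMat D S t = 0 := by
      apply matEnd_injective D.r
      rw [map_zero]
      exact ht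
    rw [RingHom.comp_apply]
    have : (toHecke (N := N) S M).toRingHom t = 0 := toHecke_eq_zero_of_toMat D S t h1
    rw [this, map_zero]
  · have h1 := congrArg ((matEnd (ZMod (p ^ K)) D.r).comp (PadicInt.toZModPow K).mapMatrix) hi
    rw [map_mul, map_sub, map_one, map_zero] at h1
    exact h1

/-- **S34** from `UnipInput`. -/
theorem s34_of_unipInput (hgeom : UnipInput) [Finite (IsLocalRing.ResidueField 𝒪)] [CharZero 𝒪]
    (hp : p.Prime) (hp𝒪 : (p : 𝒪) ∈ IsLocalRing.maximalIdeal 𝒪) (hpS : p ∈ S)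
    (hNS : ∀ q : ℕ, q.Prime → q ∣ N → q ∈ S)
    (H : CuspForm.HeckeGaloisRepDatum N (↑S : Set ℕ) 𝒪 θ T)
    (q : ℕ) (hq : q.Prime) (hqp : q ≠ p) (hqN : q ∣ N) (hq2 : ¬ q ^ 2 ∣ N) :
    H.ρ.IsUnipotentOnInertiaAt q := by
  have : Fact p.Prime := ⟨hp⟩
  obtain ⟨M, D, hM, hD⟩ := hgeom N p q hq hqp hqN hq2
  intro P hP i hi
  have hqpK : ∀ K : ℕ, ¬ q ∣ p ^ K := by
    intro K hd
    exact hqp ((Nat.prime_dvd_prime_iff_eq hq hp).mp (hq.dvd_of_dvd_pow hd))
  have hroot : ∀ j ∈ P.inertiaSubgroupIn ℚ, ∀ (K : ℕ) (ζ : AlgebraicClosure ℚ),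
      ζ ^ (p ^ K) = 1 → j ζ = ζ :=
    fun j hj K ζ hζ => inertia_apply_root P hq hP hj (hqpK K) hζ
  have htr : ∀ j ∈ P.inertiaSubgroupIn ℚ, LinearMap.trace T H.ρ.V (H.ρ.ρ j) = 2 := fun j hj =>
    trace_eq_two_of_esDatumAt hM D Fermat.Agent.Lib.FrobDensity.gal_frobeniusDensity hp𝒪 hpS hNS H j
      (hroot j hj) (hD P hP j hj)
  have h2 : ∀ y : T, 2 * y = 0 → y = 0 := by
    intro y hy
    have h3 : (2 : 𝒪) • y = 0 := by
      rw [Algebra.smul_def, map_ofNat]
      exact hy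
    exact (smul_eq_zero.mp h3).resolve_left two_ne_zero
  refine charpoly_eq_of_trace_eq_two H.ρ.finrank_eq _ h2 (htr i hi) ?_
  rw [← map_pow]
  exact htr _ (pow_mem hi 2)

end Final

end Fermat.Agent.DR
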